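import Fermat.Agent.Lowering.P1.Brauer.Tame.Structure
import Fermat.Agent.Lowering.P1.Brauer.Place
import Fermat.Agent.Lowering.P1.TWBound.Local

/-!
# The tame facts at auxiliary primes
-/

set_option autoImplicit false
set_option linter.unusedSectionVars false
set_option linter.style.haveILetI false

noncomputable section

open scoped Pointwise

namespace FLTAgent.Lowering.P1.Brauer

open Primes Tame
open FLTAgent.Mazur (kum)

local notation "LL" => AlgebraicClosure ℚ
local notation "GG" => (AlgebraicClosure ℚ ≃ₐ[ℚ] AlgebraicClosure ℚ)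

theorem targetTame : TargetTame := by
  intro hloc p _ D k _ _ _ q V hq hV
  classical
  obtain ⟨hqp, hqb, hdvd, -, -⟩ := id hq
  have hpr : p.Prime := Fact.out
  have hID := Places.inertia_le_decomposition V
  set Dec := V.decompositionSubgroup ℚ with hDec
  obtain ⟨φ, hφ⟩ := Frobenius.exists_isFrobeniusAt V q hqp hV
  obtain ⟨a, P, ha, hR, hP⟩ := exists_basis D hq hV hφ
  obtain ⟨ζ₁, hζ₁⟩ := HasEnoughRootsOfUnity.exists_primitiveRoot LL p
  obtain ⟨π, hπ⟩ := IsAlgClosed.exists_pow_nat_eq (q : LL) hpr.pos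
  obtain ⟨σ₁, hσ₁, hσ₁ne⟩ :=
    exists_kum_ne_zero hqp (fun h => hqb (h ▸ D.p_mem)) hV hζ₁ hπ
  set σD : ↥Dec := ⟨σ₁, hID hσ₁⟩
  set φD : ↥Dec := ⟨φ, hφ.mem_decompositionSubgroup⟩
  have hlam : algebraMap (ZMod p) k ((a : ZMod p) * a) - 1 ≠ 0 :=
    sub_ne_zero.2 ((algebraMap_pow_mul_inv a).2 ha)
  have hmu : algebraMap (ZMod p) k (((a⁻¹ : (ZMod p)ˣ) : ZMod p) * ((a⁻¹ : (ZMod p)ˣ) : ZMod p)) - 1
      ≠ 0 := by
    refine sub_ne_zero.2 ((algebraMap_pow_mul_inv a⁻¹).2 fun h3 => ha ?_)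
    have h4 : ((a : ZMod p) * ((a⁻¹ : (ZMod p)ˣ) : ZMod p)) ^ 2 = 1 := by
      rw [Units.mul_inv, one_pow]
    rwa [mul_pow, h3, mul_one] at h4
  -- a cocycle vanishing at the two generators vanishes
  have K1 : ∀ e, ∀ c ∈ D.cocycles k e Dec.subtype, c φD = 0 →
      inBasis k P (c σD) 0 0 = 0 → c = 0 := by
    intro e c hc hφ0 hσ0
    obtain ⟨v, hv⟩ := inertia_structure D k hq hV hP hφ hζ₁ hπ hR ha hc
    have hv0 : v = 0 := by
      have h := congrFun (congrFun (hv σD hσ₁) 0) 0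
      rw [hσ0, Matrix.smul_apply, smul_eq_mul] at h
      simp at h
      exact h.resolve_left hσ₁ne
    have hI : ∀ σ : ↥Dec, (σ : GG) ∈ V.inertiaSubgroupIn ℚ → c σ = 0 := fun σ hσ => by
      refine inBasis_injective k P ?_
      rw [hv σ hσ, hv0, map_zero]
      ext r s; fin_cases r <;> fin_cases s <;> simp
    obtain ⟨F, hF, hlev⟩ := hc.1
    haveI := hF
    obtain ⟨N, hN, hNn, hFN⟩ := Tame.exists_normal F
    haveI := hN
    haveI := hNn
    have hpow : ∀ i : ℕ, c (φD ^ i) = 0 := fun i => by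
      induction i with
      | zero => rw [pow_zero]; exact coc_one D k hc
      | succ i ih => rw [pow_succ, hc.2.2, ih, hφ0, map_zero, add_zero]
    funext τ
    obtain ⟨i, ν, σ, hσ, hν, hτ⟩ := P6.exists_pow_mul_inertia_mul V hqp hV hφ N τ.2
    have hνD : ν ∈ Dec := by
      rw [show ν = (φ ^ i)⁻¹ * τ.1 * σ⁻¹ by rw [hτ]; group]
      exact mul_mem (mul_mem (inv_mem (pow_mem φD.2 i)) τ.2) (inv_mem (hID hσ))
    rw [show τ = φD ^ i * ⟨ν, hνD⟩ * ⟨σ, hID hσ⟩ from Subtype.ext hτ, hc.2.2,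
      hI ⟨σ, hID hσ⟩ hσ, map_zero, add_zero,
      hlev (φD ^ i) ⟨ν, hνD⟩ (IntermediateField.fixingSubgroup_antitone hFN hν), hpow]
    rfl
  have K2 : ∀ e, ∀ c ∈ D.cocycles k e Dec.subtype, inBasis k P (c φD) 0 0 = 0 →
      inBasis k P (c σD) 0 0 = 0 → c ∈ D.cobs k e Dec.subtype := by
    intro e c hc hφ0 hσ0
    set m' : Matrix (Fin 2) (Fin 2) k :=
      !![0, inBasis k P (c φD) 0 1 / (algebraMap (ZMod p) k ((a : ZMod p) * a) - 1);
        inBasis k P (c φD) 1 0 / (algebraMap (ZMod p) k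
          (((a⁻¹ : (ZMod p)ˣ) : ZMod p) * ((a⁻¹ : (ZMod p)ˣ) : ZMod p)) - 1), 0]
    set m := twG p k 0 P m'
    have hm : Matrix.trace m = 0 := by
      rw [← trace_inBasis k P m, inBasis_twG]
      simp [m', Matrix.trace_fin_two, -Units.val_inv_eq_inv_val, -ZMod.inv_coe_unit]
    have hbm : D.bdy k e Dec.subtype m ∈ D.cobs k e Dec.subtype :=
      ⟨m, hm, rfl⟩
    have hz := K1 e (c - D.bdy k e Dec.subtype m) (sub_mem hc (cobs_le_cocycles D k hbm)) (by
      refine inBasis_injective k P ?_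
      show inBasis k P (c φD - (D.tw k e φ m - m)) = inBasis k P 0
      rw [map_sub, map_sub, inBasis_tw D k hq hV φD.2 hR, inBasis_twG, map_zero]
      have h11 : inBasis k P (c φD) 1 1 = 0 := by
        have h := trace_inBasis k P (c φD)
        rw [hc.2.1, Matrix.trace_fin_two, hφ0, zero_add] at h
        exact h
      have hsolve : ∀ L z : k, L - 1 ≠ 0 → z - (L * (z / (L - 1)) - z / (L - 1)) = 0 := by
        intro L z hL
        field_simp
        ring
      ext r s
      fin_cases r <;> fin_cases s <;>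
        simp only [m', Matrix.sub_apply, Matrix.zero_apply, Matrix.of_apply, Matrix.cons_val',
          Matrix.cons_val_zero, Matrix.cons_val_one, Matrix.cons_val_fin_one, Fin.zero_eta, Fin.mk_one,
          hφ0, h11, sub_zero]
      · exact hsolve _ _ hlam
      · exact hsolve _ _ hmu) (by
      show inBasis k P (c σD - (D.tw k e σ₁ m - m)) 0 0 = 0
      rw [tw_of_rb D k e (D.unramified q hqp hqb V hV σ₁ hσ₁), sub_self, sub_zero, hσ0])
    rw [sub_eq_zero.1 hz]
    exact hbm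
  refine ⟨?_, ?_⟩
  · -- the dimension
    set C := D.cocycles k 0 Dec.subtype
    let ev : ↥C →ₗ[k] Matrix (Fin 2) (Fin 2) k × k :=
      ((LinearMap.proj φD).comp C.subtype).prod
        ((Matrix.entryLinearMap k k (0 : Fin 2) (0 : Fin 2)).comp
          ((inBasis k P).comp ((LinearMap.proj σD).comp C.subtype)))
    have hev : Function.Injective ev := (injective_iff_map_eq_zero ev).2 fun c hc =>
      Subtype.ext (K1 0 c.1 c.2 (congrArg Prod.fst hc) (congrArg Prod.snd hc))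
    haveI : FiniteDimensional k ↥C := FiniteDimensional.of_injective ev hev
    refine ⟨inferInstance, ?_⟩
    let Θ : ↥C →ₗ[k] k × k :=
      ((Matrix.entryLinearMap k k (0 : Fin 2) (0 : Fin 2)).comp
          ((inBasis k P).comp ((LinearMap.proj φD).comp C.subtype))).prod
        ((Matrix.entryLinearMap k k (0 : Fin 2) (0 : Fin 2)).comp
          ((inBasis k P).comp ((LinearMap.proj σD).comp C.subtype)))
    let g : ↥(LinearMap.ker Θ) →ₗ[k] ↥(D.cobs k 0 Dec.subtype) :=
      (C.subtype.comp (LinearMap.ker Θ).subtype).codRestrict _ fun c =>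
        K2 0 c.1.1 c.1.2 (congrArg Prod.fst (LinearMap.mem_ker.1 c.2))
          (congrArg Prod.snd (LinearMap.mem_ker.1 c.2))
    have hg : Function.Injective g := fun x y h =>
      Subtype.ext (Subtype.ext (by have h0 := congrArg Subtype.val h; exact h0))
    have h1 := LinearMap.finrank_le_finrank_of_injective hg
    have h2 := LinearMap.finrank_range_add_finrank_ker Θ
    have h3 : Module.finrank k ↥(LinearMap.range Θ) ≤ 2 :=
      (Submodule.finrank_le _).trans (by rw [Module.finrank_prod, Module.finrank_self])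
    show Module.finrank k ↥C ≤ _
    omega
  · -- detection
    intro ζ hζ y hy hyn
    have hζH : ∀ σ ∈ Dec, σ ζ = ζ := fun σ hσ => by
      rw [D.det_cyclo σ ζ hζ.pow_eq_one,
        show Matrix.det (D.rb σ : Matrix (Fin 2) (Fin 2) (ZMod p)) = 1 from om_eq_one D hq hV hσ,
        ZMod.val_one, pow_one]
    set A : ↥Dec → k := fun g => inBasis k P (y g) 0 0
    have hA : ∀ g h, A (g * h) = A g + A h := diag_add D k hq hV hP hy
    obtain ⟨h₀, hh₀⟩ : ∃ h, A h ≠ 0 := by
      by_contra hall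
      push Not at hall
      exact hyn (K2 1 y hy (hall φD) (hall σD))
    have h2k : (2 : k) ≠ 0 := TWBound.two_ne k D
    obtain ⟨θ, hθ⟩ : ∃ θ : k →ₗ[ZMod p] ZMod p, θ (2 * A h₀) ≠ 0 := by
      by_contra hall
      push Not at hall
      exact mul_ne_zero h2k hh₀
        ((Module.forall_dual_apply_eq_zero_iff (ZMod p) (2 * A h₀)).1 hall)
    let χ : GG → ZMod p := fun g => if hg : g ∈ Dec then θ (2 * A ⟨g, hg⟩) else 0
    have hχ : ∀ g (hg : g ∈ Dec), χ g = θ (2 * A ⟨g, hg⟩) := fun g hg => dif_pos hg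
    have hχmul : ∀ g ∈ Dec, ∀ h ∈ Dec, χ (g * h) = χ g + χ h := fun g hg h hh => by
      rw [hχ g hg, hχ h hh, hχ _ (mul_mem hg hh), ← map_add, ← mul_add, ← hA]
      rfl
    have hχlev : LevOn Dec χ := by
      obtain ⟨F, hF, hlev⟩ := hy.1
      refine ⟨F, hF, fun g hg s hs hsF => ?_⟩
      rw [hχ g hg, hχ _ (mul_mem hg hs)]
      show θ (2 * inBasis k P (y (⟨g, hg⟩ * ⟨s, hs⟩)) 0 0) = _
      rw [hlev ⟨g, hg⟩ ⟨s, hs⟩ hsF]
    let X := CycChar.ofNe hχmul hχlev ⟨h₀.1, h₀.2, by rw [hχ h₀.1 h₀.2]; exact hθ⟩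
    obtain ⟨b₀, hb₀, hb₀fix, hb₀not, -⟩ := local_index hloc hqp hV hζ hζH localSub_self X
    obtain ⟨δ, hδ⟩ := IsAlgClosed.exists_pow_nat_eq b₀ hpr.pos
    have hδ0 : δ ≠ 0 := fun h => hb₀ (by rw [← hδ, h, zero_pow hpr.ne_zero])
    let ψ : GG → ZMod p := kum p ζ δ
    have hψ : ∀ σ ∈ Dec, σ δ = ζ ^ (ψ σ).val * δ := fun σ hσ =>
      Mazur.kum_spec hζ hδ0 (by rw [hδ]; exact hb₀fix σ hσ)
    have hinj : ∀ x y : ZMod p, ζ ^ x.val * δ = ζ ^ y.val * δ → x = y := fun x y h =>
      ZMod.val_injective p (hζ.pow_inj (ZMod.val_lt x) (ZMod.val_lt y) (mul_right_cancel₀ hδ0 h))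
    have hψmul : ∀ g ∈ Dec, ∀ h ∈ Dec, ψ (g * h) = ψ g + ψ h := fun g hg h hh => by
      refine hinj _ _ ?_
      rw [← hψ _ (mul_mem hg hh), AlgEquiv.mul_apply, hψ h hh, map_mul, map_pow, hζH g hg, hψ g hg,
        zeta_pow_val_add hζ]
      ring
    haveI : FiniteDimensional ℚ (IntermediateField.adjoin ℚ ({δ} : Set LL)) :=
      IntermediateField.adjoin.finiteDimensional (integral_coe δ)
    have hψlev : ∀ g ∈ Dec, ∀ s ∈ Dec,
        s ∈ (IntermediateField.adjoin ℚ ({δ} : Set LL)).fixingSubgroup → ψ (g * s) = ψ g :=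
      fun g hg s hs hsE => by
        refine hinj _ _ ?_
        rw [← hψ _ (mul_mem hg hs), ← hψ g hg, AlgEquiv.mul_apply,
          (IntermediateField.mem_fixingSubgroup_iff _ s).1 hsE δ
            (IntermediateField.mem_adjoin_simple_self ℚ δ)]
    set H' : Matrix (Fin 2) (Fin 2) k := !![1, 0; 0, -1]
    set W := twG p k 0 P H'
    have hW : ∀ g : ↥Dec, D.tw k 0 (g : GG) W = W := fun g => by
      obtain ⟨i, hi⟩ := hP g.1 g.2
      refine inBasis_injective k P ?_
      rw [inBasis_tw D k hq hV g.2 hi, inBasis_twG]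
      ext r s; fin_cases r <;> fin_cases s <;> simp [H']
    let x : ↥Dec → Matrix (Fin 2) (Fin 2) k := fun g => algebraMap (ZMod p) k (ψ g) • W
    have hx : x ∈ D.cocycles k 0 Dec.subtype := by
      refine ⟨⟨IntermediateField.adjoin ℚ ({δ} : Set LL), inferInstance, fun g s hs => ?_⟩,
        fun g => ?_, fun g h => ?_⟩
      · show algebraMap (ZMod p) k (ψ ((g : GG) * s)) • W = _
        rw [hψlev g g.2 s s.2 hs]
      · rw [Matrix.trace_smul, ← trace_inBasis k P W, inBasis_twG]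
        simp [H', Matrix.trace_fin_two]
      · show algebraMap (ZMod p) k (ψ ((g : GG) * h)) • W = _
        rw [hψmul g g.2 h h.2, map_add, add_smul, Subgroup.subtype_apply, map_smul, hW]
    refine ⟨x, hx, θ, fun hcob => hb₀not (X.norm_of_cob_sym ?_)⟩
    have h1 := cob_cup_mul_symR hζ hχmul hχlev hδ0 hψ
    rw [hδ] at h1
    refine (h1.mul hcob.inv).congr fun σ hσ τ hτ => ?_
    have e : θ (D.cup k Dec.subtype x y ⟨σ, hσ⟩ ⟨τ, hτ⟩) = ψ σ * χ τ := by
      obtain ⟨i, hi⟩ := hP σ hσ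
      rw [hχ τ hτ]
      simp only [Datum.cup, Subgroup.subtype_apply, x, smul_mul_assoc, Matrix.trace_smul]
      rw [← trace_inBasis_mul k P, inBasis_twG, inBasis_tw D k hq hV hσ hi, smul_eq_mul,
        ← Algebra.smul_def, map_smul, smul_eq_mul]
      congr 2
      have h11 := trace_inBasis k P (y ⟨τ, hτ⟩)
      rw [hy.2.1, Matrix.trace_fin_two] at h11
      rw [Matrix.trace_fin_two]
      simp [H', Matrix.mul_apply, Fin.sum_univ_two, A]
      linear_combination -h11
    beta_reduce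
    simp only [expCochain, dif_pos hσ, dif_pos hτ, e]
    rw [CycChar.sym_eq, mul_comm (ζ ^ _) _, mul_inv_cancel_right₀ (pow_ne_zero _ (hζ.ne_zero hpr.ne_zero))]
    rfl

end FLTAgent.Lowering.P1.Brauer
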