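import Fermat.Agent.Lowering.P1.Brauer.Split
import Fermat.Agent.Lowering.P1.Primes.Frobenius
import Fermat.Agent.Lowering.P6.Tame

/-!
# The decomposition group at an auxiliary prime acts diagonally

Its image is generated by a Frobenius element with two distinct rational eigenvalues of product
one.
-/

set_option autoImplicit false
set_option linter.unusedSectionVars false
set_option linter.style.haveILetI false

noncomputable section

open scoped Pointwise

namespace FLTAgent.Lowering.P1.Brauer.Tame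

open Primes

local notation "LL" => AlgebraicClosure ℚ
local notation "GG" => (AlgebraicClosure ℚ ≃ₐ[ℚ] AlgebraicClosure ℚ)

variable {p : ℕ} [Fact p.Prime] (D : Datum p)

theorem exists_normal (F : IntermediateField ℚ LL) [FiniteDimensional ℚ F] :
    ∃ N : IntermediateField ℚ LL, FiniteDimensional ℚ N ∧ Normal ℚ N ∧ F ≤ N :=
  exists_normal_le F

/-- The determinant of a Frobenius element at a prime congruent to one is one. -/
theorem det_frobenius {q : ℕ} (hq : q.Prime) (hqb : q ∉ D.bad) (hdvd : p ∣ q - 1)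
    {V : ValuationSubring LL} (hV : V.LiesOverPrime q) {φ : GG} (hφ : V.IsFrobeniusAt φ q) :
    Matrix.det (D.rb φ : Matrix (Fin 2) (Fin 2) (ZMod p)) = 1 := by
  have hpr : p.Prime := Fact.out
  obtain ⟨ζ, hζ⟩ := HasEnoughRootsOfUnity.exists_primitiveRoot LL p
  have hne : ¬ q ∣ p := fun h => hqb ((Nat.prime_dvd_prime_iff_eq hq hpr).1 h ▸ D.p_mem)
  have h := P6.expChar_frobenius V hq hV hne hζ hφ
  have h1 := Mazur.isExp_expChar hζ φ
  rw [h, D.det_cyclo φ ζ hζ.pow_eq_one] at h1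
  have h2 : (q : ZMod p) = 1 := by
    have : ((q - 1 : ℕ) : ZMod p) = 0 := (CharP.cast_eq_zero_iff (ZMod p) p _).2 hdvd
    rwa [Nat.cast_sub hq.one_le, Nat.cast_one, sub_eq_zero] at this
  rw [h2, ZMod.val_one] at h1
  exact ZMod.val_injective p (by rw [ZMod.val_one]; exact hζ.pow_inj (ZMod.val_lt _) hpr.one_lt h1)

/-- Two distinct eigenvalues of product one diagonalise. -/
theorem exists_diagonal (R : GL (Fin 2) (ZMod p))
    (hdet : Matrix.det (R : Matrix (Fin 2) (Fin 2) (ZMod p)) = 1) {α : ZMod p} (hα : α ^ 2 ≠ 1)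
    (hchar : α ^ 2 - Matrix.trace (R : Matrix (Fin 2) (Fin 2) (ZMod p)) * α + 1 = 0) :
    ∃ (a : (ZMod p)ˣ) (P : GL (Fin 2) (ZMod p)),
      (a : ZMod p) = α ∧ R = P * diagHom p (a, a⁻¹) * P⁻¹ := by
  have hα0 : α ≠ 0 := fun h => by simp [h] at hchar
  set M := (R : Matrix (Fin 2) (Fin 2) (ZMod p))
  set β : ZMod p := α⁻¹
  have hαβ : α * β = 1 := mul_inv_cancel₀ hα0
  rw [Matrix.det_fin_two] at hdet
  rw [Matrix.trace_fin_two] at hchar
  have key : ∀ x : ZMod p, x ^ 2 - (M 0 0 + M 1 1) * x + 1 = 0 →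
      ∃ v : Fin 2 → ZMod p, v ≠ 0 ∧ M.mulVec v = x • v := by
    intro x hx
    have h0 : (M - x • (1 : Matrix (Fin 2) (Fin 2) (ZMod p))).det = 0 := by
      simp only [Matrix.det_fin_two, Matrix.sub_apply, Matrix.smul_apply, smul_eq_mul]
      simp
      linear_combination hx + hdet
    obtain ⟨v, hv, hv'⟩ := Matrix.exists_mulVec_eq_zero_iff.2 h0
    exact ⟨v, hv, by rwa [Matrix.sub_mulVec, Matrix.smul_mulVec, Matrix.one_mulVec, sub_eq_zero] at hv'⟩
  obtain ⟨v, hv, hMv⟩ := key α hchar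
  obtain ⟨w, hw, hMw⟩ := key β (by linear_combination β ^ 2 * hchar -
    ((α * β + 1) - (M 0 0 + M 1 1) * β) * hαβ)
  have hd : (!![v 0, w 0; v 1, w 1] : Matrix (Fin 2) (Fin 2) (ZMod p)).det ≠ 0 := by
    intro h0
    obtain ⟨z, hz, hz'⟩ := Matrix.exists_mulVec_eq_zero_iff.2 h0
    have e1 : z 0 • v + z 1 • w = 0 := by
      funext i
      have h := congrFun hz' i
      fin_cases i <;> simp [Matrix.mulVec, dotProduct, Fin.sum_univ_two] at h ⊢ <;>
        linear_combination h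
    have e2 := congrArg M.mulVec e1
    rw [Matrix.mulVec_add, Matrix.mulVec_smul, Matrix.mulVec_smul, hMv, hMw, Matrix.mulVec_zero] at e2
    have e3 : (z 0 * (α - β)) • v = 0 := by
      have h := congrArg (β • ·) e1
      simp only [smul_zero] at h
      linear_combination (norm := module) e2 - h
    have hne : α - β ≠ 0 := fun h => hα (by rw [sq]; linear_combination α * h + hαβ)
    have hz0 : z 0 = 0 := by
      rcases smul_eq_zero.1 e3 with h | h
      · exact (mul_eq_zero.1 h).resolve_right hne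
      · exact absurd h hv
    rw [hz0, zero_smul, zero_add, smul_eq_zero, or_iff_left hw] at e1
    exact hz (funext (Fin.forall_fin_two.2 ⟨hz0, e1⟩))
  let P : GL (Fin 2) (ZMod p) := Matrix.GeneralLinearGroup.mkOfDetNeZero _ hd
  refine ⟨Units.mk0 α hα0, P, rfl, ?_⟩
  rw [eq_mul_inv_iff_mul_eq]
  refine Units.ext ?_
  show M * !![v 0, w 0; v 1, w 1] =
    !![v 0, w 0; v 1, w 1] * !![α, 0; 0, (((Units.mk0 α hα0)⁻¹ : (ZMod p)ˣ) : ZMod p)]
  rw [Units.val_inv_eq_inv_val, Units.val_mk0]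
  ext i j
  fin_cases j
  · have := congrFun hMv i
    fin_cases i <;> simp [Matrix.mulVec, dotProduct, Fin.sum_univ_two, Matrix.mul_apply] at this ⊢ <;>
      linear_combination this
  · have := congrFun hMw i
    fin_cases i <;>
      simp [Matrix.mulVec, dotProduct, Fin.sum_univ_two, Matrix.mul_apply, β] at this ⊢ <;>
      linear_combination this

/-- The image of the decomposition group. -/
theorem exists_basis {n q : ℕ} (hq : D.IsAuxPrime n q) {V : ValuationSubring LL}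
    (hV : V.LiesOverPrime q) {φ : GG} (hφ : V.IsFrobeniusAt φ q) :
    ∃ (a : (ZMod p)ˣ) (P : GL (Fin 2) (ZMod p)), (a : ZMod p) ^ 2 ≠ 1 ∧
      D.rb φ = P * diagHom p (a, a⁻¹) * P⁻¹ ∧
      ∀ τ ∈ V.decompositionSubgroup ℚ, ∃ i : ℕ,
        D.rb τ = P * diagHom p (a ^ i, (a ^ i)⁻¹) * P⁻¹ := by
  obtain ⟨hqp, hqb, hdvd, -, α, hα, hchar⟩ := hq
  obtain ⟨a, P, ha, hR⟩ := exists_diagonal (D.rb φ) (det_frobenius D hqp hqb hdvd hV hφ) hα
    (hchar V hV φ hφ)
  refine ⟨a, P, by rw [ha]; exact hα, hR, fun τ hτ => ?_⟩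
  obtain ⟨L, hL, hlev⟩ := D.level
  haveI := hL
  obtain ⟨N, hN, hNn, hLN⟩ := exists_normal L
  haveI := hN
  haveI := hNn
  obtain ⟨i, ν, σ, hσ, hν, he⟩ := P6.exists_pow_mul_inertia_mul V hqp hV hφ N hτ
  refine ⟨i, ?_⟩
  rw [he, map_mul, map_mul, D.unramified q hqp hqb V hV σ hσ,
    hlev ν fun x hx => (IntermediateField.mem_fixingSubgroup_iff N ν).1 hν x (hLN hx),
    mul_one, mul_one, map_pow, hR, conj_pow, ← map_pow, Prod.pow_mk, inv_pow]

theorem om_eq_one {n q : ℕ} (hq : D.IsAuxPrime n q) {V : ValuationSubring LL}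
    (hV : V.LiesOverPrime q) {τ : GG} (hτ : τ ∈ V.decompositionSubgroup ℚ) : D.om τ = 1 := by
  obtain ⟨φ, hφ⟩ := Frobenius.exists_isFrobeniusAt V q hq.1 hV
  obtain ⟨a, P, -, -, h⟩ := exists_basis D hq hV hφ
  obtain ⟨i, hi⟩ := h τ hτ
  rw [Datum.om, hi, Units.val_mul, Units.val_mul, Matrix.det_mul, Matrix.det_mul, det_diag,
    Units.mul_inv, mul_one, ← Matrix.det_mul, ← Units.val_mul, mul_inv_cancel, Units.val_one,
    Matrix.det_one]

end FLTAgent.Lowering.P1.Brauer.Tame
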