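import Fermat.Agent.Lowering.P1.Brauer.Tame.Diag

/-!
# Cocycles at an auxiliary prime in an eigenbasis
-/

set_option autoImplicit false
set_option linter.unusedSectionVars false
set_option linter.style.haveILetI false

noncomputable section

open scoped Pointwise

namespace FLTAgent.Lowering.P1.Brauer.Tame

open Primes
open FLTAgent.Mazur (kum expChar)

local notation "LL" => AlgebraicClosure ℚ
local notation "GG" => (AlgebraicClosure ℚ ≃ₐ[ℚ] AlgebraicClosure ℚ)

/-- Some inertia element moves a root of the residue characteristic. -/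
theorem exists_kum_ne_zero {p t : ℕ} [Fact p.Prime] (ht : t.Prime) (htp : t ≠ p)
    {V : ValuationSubring LL} (hV : V.LiesOverPrime t) {ζ π : LL} (hζ : IsPrimitiveRoot ζ p)
    (hπ : π ^ p = t) : ∃ σ ∈ V.inertiaSubgroupIn ℚ, kum p ζ π σ ≠ 0 := by
  have hp : p.Prime := Fact.out
  haveI : Fact t.Prime := ⟨ht⟩
  have hπ' : ∀ σ : GG, σ π = ζ ^ (kum p ζ π σ).val * π := fun σ =>
    Mazur.kum_spec_rat hζ (r := (t : ℚ)) (Nat.cast_ne_zero.2 ht.ne_zero)
      (by rw [hπ, Rat.cast_natCast]) σ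
  have hπ0 : π ≠ 0 := fun e => Nat.cast_ne_zero.2 ht.ne_zero
    (by rw [← hπ, e, zero_pow hp.ne_zero])
  by_contra hall
  push Not at hall
  obtain ⟨i, hi⟩ := Mazur.exists_zpow_valuation V ht hV hπ0 fun σ hσ => by
    rw [hπ', hall σ hσ]; simp
  have h1 : V.valuation (t : LL) ^ ((p : ℤ) * i) = V.valuation (t : LL) ^ (1 : ℤ) := by
    rw [mul_comm, zpow_mul, zpow_natCast, ← hi, ← map_pow, hπ, zpow_one]
  have h2 := Int.eq_one_of_mul_eq_one_right (by positivity)
    (Mazur.zpow_valuation_injective V ht hV h1)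
  exact hp.ne_one (by exact_mod_cast h2)

theorem algebraMap_pow_mul_inv {p : ℕ} [Fact p.Prime] {k : Type} [Field k] [Algebra (ZMod p) k]
    (a : (ZMod p)ˣ) :
    algebraMap (ZMod p) k ((a : ZMod p) * (a : ZMod p)) ≠ 1 ↔ (a : ZMod p) ^ 2 ≠ 1 := by
  rw [sq, ne_eq, ne_eq, ← map_one (algebraMap (ZMod p) k)]
  exact not_congr (algebraMap (ZMod p) k).injective.eq_iff

variable {p : ℕ} [Fact p.Prime] (D : Datum p) (k : Type) [Field k] [Algebra (ZMod p) k]

/-- Coordinates in the eigenbasis. -/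
def inBasis (P : GL (Fin 2) (ZMod p)) : Matrix (Fin 2) (Fin 2) k →ₗ[k] Matrix (Fin 2) (Fin 2) k :=
  twG p k 0 P⁻¹

theorem inBasis_twG (P : GL (Fin 2) (ZMod p)) (A : Matrix (Fin 2) (Fin 2) k) :
    inBasis k P (twG p k 0 P A) = A := by
  rw [inBasis, ← twG_mul, inv_mul_cancel, twG_one]

theorem twG_inBasis (P : GL (Fin 2) (ZMod p)) (A : Matrix (Fin 2) (Fin 2) k) :
    twG p k 0 P (inBasis k P A) = A := by
  rw [inBasis, ← twG_mul, mul_inv_cancel, twG_one]

theorem inBasis_injective (P : GL (Fin 2) (ZMod p)) : Function.Injective (inBasis k P) :=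
  Function.LeftInverse.injective (twG_inBasis k P)

theorem trace_inBasis (P : GL (Fin 2) (ZMod p)) (A : Matrix (Fin 2) (Fin 2) k) :
    Matrix.trace (inBasis k P A) = Matrix.trace A := by
  rw [inBasis, twG_apply, pow_zero, map_one, one_smul, Matrix.trace_mul_comm, mul_assoc,
    ← Units.val_mul, ← map_mul, inv_mul_cancel, map_one, Units.val_one, mul_one]

theorem trace_inBasis_mul (P : GL (Fin 2) (ZMod p)) (A B : Matrix (Fin 2) (Fin 2) k) :
    Matrix.trace (inBasis k P A * inBasis k P B) = Matrix.trace (A * B) := by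
  rw [← trace_inBasis k P (A * B)]
  congr 1
  simp only [inBasis, twG_apply, pow_zero, map_one, one_smul]
  set u := Matrix.GeneralLinearGroup.map (algebraMap (ZMod p) k) P⁻¹ with hu
  set u' := Matrix.GeneralLinearGroup.map (algebraMap (ZMod p) k) P⁻¹⁻¹ with hu'
  have h : ((u' : GL (Fin 2) k) : Matrix (Fin 2) (Fin 2) k) * (u : GL (Fin 2) k) = 1 := by
    rw [hu, hu', ← Units.val_mul, ← map_mul, inv_mul_cancel, map_one, Units.val_one]
  simp only [mul_assoc]
  rw [← mul_assoc (u' : Matrix (Fin 2) (Fin 2) k) (u : Matrix (Fin 2) (Fin 2) k), h, one_mul]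

theorem tw_eq_zero_twist {q : ℕ} {V : ValuationSubring LL} (hq : D.IsAuxPrime 1 q)
    (hV : V.LiesOverPrime q) {τ : GG} (hτ : τ ∈ V.decompositionSubgroup ℚ) (e : ℕ)
    (A : Matrix (Fin 2) (Fin 2) k) : D.tw k e τ A = D.tw k 0 τ A := by
  have h := om_eq_one D hq hV hτ
  rw [tw_eq, tw_eq, twG_apply, twG_apply,
    show Matrix.det (D.rb τ : Matrix (Fin 2) (Fin 2) (ZMod p)) = 1 from h, one_pow, one_pow]

/-- The action in the eigenbasis. -/
theorem inBasis_tw {q : ℕ} {V : ValuationSubring LL} (hq : D.IsAuxPrime 1 q)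
    (hV : V.LiesOverPrime q) {τ : GG} (hτ : τ ∈ V.decompositionSubgroup ℚ)
    {P : GL (Fin 2) (ZMod p)} {a : (ZMod p)ˣ} (h : D.rb τ = P * diagHom p (a, a⁻¹) * P⁻¹) (e : ℕ)
    (A : Matrix (Fin 2) (Fin 2) k) :
    inBasis k P (D.tw k e τ A) =
      !![inBasis k P A 0 0, algebraMap (ZMod p) k ((a : ZMod p) * a) * inBasis k P A 0 1;
        algebraMap (ZMod p) k (((a⁻¹ : (ZMod p)ˣ) : ZMod p) * ((a⁻¹ : (ZMod p)ˣ) : ZMod p)) *
          inBasis k P A 1 0, inBasis k P A 1 1] := by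
  rw [tw_eq_zero_twist D k hq hV hτ, tw_eq, h, twG_mul, twG_mul, inBasis_twG]
  show twG p k 0 (diagHom p (a, a⁻¹)) (inBasis k P A) = _
  rw [twG_diag, pow_zero, map_one, one_smul, inv_inv]

section Fixed

variable {q : ℕ} {V : ValuationSubring LL} {P : GL (Fin 2) (ZMod p)} {a : (ZMod p)ˣ}
  (hq : D.IsAuxPrime 1 q) (hV : V.LiesOverPrime q)
  (hP : ∀ τ ∈ V.decompositionSubgroup ℚ, ∃ i : ℕ,
    D.rb τ = P * diagHom p (a ^ i, (a ^ i)⁻¹) * P⁻¹)

include hq hV hP in
/-- The diagonal coordinate is additive. -/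
theorem diag_add {e : ℕ} {c : ↥(V.decompositionSubgroup ℚ) → Matrix (Fin 2) (Fin 2) k}
    (hc : c ∈ D.cocycles k e (V.decompositionSubgroup ℚ).subtype)
    (g h : ↥(V.decompositionSubgroup ℚ)) :
    inBasis k P (c (g * h)) 0 0 = inBasis k P (c g) 0 0 + inBasis k P (c h) 0 0 := by
  obtain ⟨i, hi⟩ := hP g.1 g.2
  rw [hc.2.2, map_add, Matrix.add_apply, Subgroup.subtype_apply,
    inBasis_tw D k hq hV g.2 hi]
  simp

variable {φ : GG} (hφ : V.IsFrobeniusAt φ q) {ζ π : LL} (hζ : IsPrimitiveRoot ζ p)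
  (hπ : π ^ p = q) (hR : D.rb φ = P * diagHom p (a, a⁻¹) * P⁻¹) (ha : (a : ZMod p) ^ 2 ≠ 1)
  [FiniteDimensional (ZMod p) k]

include hq hV hP hφ hζ hπ hR ha in
/-- On inertia a cocycle is diagonal and proportional to the Kummer character. -/
theorem inertia_structure {e : ℕ} {c : ↥(V.decompositionSubgroup ℚ) → Matrix (Fin 2) (Fin 2) k}
    (hc : c ∈ D.cocycles k e (V.decompositionSubgroup ℚ).subtype) :
    ∃ v : k, ∀ σ : ↥(V.decompositionSubgroup ℚ), (σ : GG) ∈ V.inertiaSubgroupIn ℚ →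
      inBasis k P (c σ) = algebraMap (ZMod p) k (kum p ζ π σ) • !![v, 0; 0, -v] := by
  obtain ⟨hqp, hqb, hdvd, -, -⟩ := id hq
  have hpr : p.Prime := Fact.out
  have hne : q ≠ p := fun h => hqb (h ▸ D.p_mem)
  have hqm : ¬ q ∣ p := fun h => hne ((Nat.prime_dvd_prime_iff_eq hqp hpr).1 h)
  have hID := Places.inertia_le_decomposition V
  have hun : ∀ σ : ↥(V.decompositionSubgroup ℚ), (σ : GG) ∈ V.inertiaSubgroupIn ℚ →
      D.rb (σ : GG) = 1 := fun σ hσ => D.unramified q hqp hqb V hV _ hσ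
  obtain ⟨F, hF, hlev⟩ := hc.1
  haveI := hF
  obtain ⟨N, hN, hNn, hFN⟩ := exists_normal F
  haveI := hN
  haveI := hNn
  classical
  -- a finite quotient seeing the cocycle
  let f : ↥(V.decompositionSubgroup ℚ) →* (N ≃ₐ[ℚ] N) :=
    (AlgEquiv.restrictNormalHom N).comp (V.decompositionSubgroup ℚ).subtype
  have hker : ∀ x y : ↥(V.decompositionSubgroup ℚ), f x = f y → c x = c y := fun x y h => by
    have hm : ((x⁻¹ * y : ↥(V.decompositionSubgroup ℚ)) : GG) ∈ N.fixingSubgroup := by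
      rw [IntermediateField.mem_fixingSubgroup_iff]
      intro z hz
      have h1 : f (x⁻¹ * y) = 1 := by rw [map_mul, map_inv, h, inv_mul_cancel]
      exact (AlgEquiv.restrictNormal_commutes _ N ⟨z, hz⟩).symm.trans
        (congrArg (fun s : N ≃ₐ[ℚ] N => ((s ⟨z, hz⟩ : N) : LL)) h1)
    have h2 := hlev x (x⁻¹ * y) (IntermediateField.fixingSubgroup_antitone hFN hm)
    rw [mul_inv_cancel_left] at h2
    exact h2.symm
  have hfl : LevC (V.decompositionSubgroup ℚ).subtype f :=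
    ⟨N, hN, fun g s hs => by
      rw [map_mul]
      refine mul_eq_left.2 (AlgEquiv.ext fun z => Subtype.ext ?_)
      exact (AlgEquiv.restrictNormal_commutes (s : GG) N z).trans
        ((IntermediateField.mem_fixingSubgroup_iff N _).1 hs _ z.2)⟩
  obtain ⟨σ₀, hσ₀, hσ₀ne⟩ := exists_kum_ne_zero hqp hne hV hζ hπ
  set σD : ↥(V.decompositionSubgroup ℚ) := ⟨σ₀, hID hσ₀⟩
  set u : k := algebraMap (ZMod p) k (kum p ζ π σ₀)
  have hu : u ≠ 0 := (map_ne_zero _).2 hσ₀ne
  -- every functional of an entry is a multiple of the Kummer character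
  have hprop : ∀ (r s : Fin 2) (σ : ↥(V.decompositionSubgroup ℚ)),
      (σ : GG) ∈ V.inertiaSubgroupIn ℚ → inBasis k P (c σ) r s =
        algebraMap (ZMod p) k (kum p ζ π σ) * (inBasis k P (c σD) r s / u) := by
    intro r s σ hσ
    refine (Module.evalEquiv (ZMod p) k).injective (LinearMap.ext fun θ => ?_)
    show θ _ = θ _
    let ψ : (N ≃ₐ[ℚ] N) → ZMod p := fun x =>
      if h : ∃ τ, f τ = x then θ (inBasis k P (c h.choose) r s) else 0
    have hψ : ∀ τ, ψ (f τ) = θ (inBasis k P (c τ) r s) := fun τ => by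
      have h : ∃ τ', f τ' = f τ := ⟨τ, rfl⟩
      rw [show ψ (f τ) = _ from dif_pos h, hker _ _ h.choose_spec]
    obtain ⟨i, hi⟩ := P6.exists_mul_kum V f hqp hV hqm hζ hπ hfl ψ fun x y hx hy => by
      rw [hψ, hψ, hψ, hc.2.2, Subgroup.subtype_apply, tw_of_rb D k e (hun x hx), map_add,
        Matrix.add_apply, map_add]
    have h0 := hi σD hσ₀
    have h1 := hi σ hσ
    rw [hψ] at h0 h1
    have e1 : θ (algebraMap (ZMod p) k (kum p ζ π σ) * (inBasis k P (c σD) r s / u)) =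
        kum p ζ π σ * ((kum p ζ π σ₀)⁻¹ * θ (inBasis k P (c σD) r s)) := by
      have e : inBasis k P (c σD) r s / u =
          algebraMap (ZMod p) k (kum p ζ π σ₀)⁻¹ * inBasis k P (c σD) r s := by
        rw [map_inv₀, div_eq_inv_mul]
      rw [e, ← Algebra.smul_def, map_smul, ← Algebra.smul_def, map_smul, smul_eq_mul, smul_eq_mul]
    rw [e1, h1, h0, show ((σD : GG)) = σ₀ from rfl, mul_left_comm ((kum p ζ π σ₀)⁻¹), ← mul_assoc,
      inv_mul_cancel₀ hσ₀ne, mul_one, mul_comm]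
  -- conjugation by Frobenius
  set φD : ↥(V.decompositionSubgroup ℚ) := ⟨φ, hφ.mem_decompositionSubgroup⟩
  have hconjI : ((φD * σD * φD⁻¹ : ↥(V.decompositionSubgroup ℚ)) : GG) ∈ V.inertiaSubgroupIn ℚ :=
    Mazur.conj_mem V φD.2 hσ₀
  have hq1 : (q : ZMod p) = 1 := by
    have : ((q - 1 : ℕ) : ZMod p) = 0 := (CharP.cast_eq_zero_iff (ZMod p) p _).2 hdvd
    rwa [Nat.cast_sub hqp.one_le, Nat.cast_one, sub_eq_zero] at this
  have hkum : kum p ζ π ((φD * σD * φD⁻¹ : ↥(V.decompositionSubgroup ℚ)) : GG) = kum p ζ π σ₀ := by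
    rw [show ((φD * σD * φD⁻¹ : ↥(V.decompositionSubgroup ℚ)) : GG) = φ * σ₀ * φ⁻¹ from rfl,
      Mazur.kum_conj hqp hV hqm hζ hπ hσ₀, P6.expChar_frobenius V hqp hV hqm hζ hφ, hq1, one_mul]
  have hcφ : inBasis k P (c σD) = !![inBasis k P (c σD) 0 0,
      algebraMap (ZMod p) k ((a : ZMod p) * a) * inBasis k P (c σD) 0 1;
      algebraMap (ZMod p) k (((a⁻¹ : (ZMod p)ˣ) : ZMod p) * ((a⁻¹ : (ZMod p)ˣ) : ZMod p)) *
        inBasis k P (c σD) 1 0, inBasis k P (c σD) 1 1] := by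
    rw [← inBasis_tw D k hq hV φD.2 hR e (c σD)]
    have h1 := congrArg (inBasis k P) (coc_conj_of_rb D k hc φD σD (hun σD hσ₀))
    rw [Subgroup.subtype_apply] at h1
    rw [← h1]
    ext r s
    rw [hprop r s _ hconjI, hkum, mul_div_cancel₀ _ hu]
  have h01 : inBasis k P (c σD) 0 1 = 0 := by
    have h : inBasis k P (c σD) 0 1 =
        algebraMap (ZMod p) k ((a : ZMod p) * a) * inBasis k P (c σD) 0 1 :=
      congrFun (congrFun hcφ 0) 1
    have h2 : (algebraMap (ZMod p) k ((a : ZMod p) * a) - 1) * inBasis k P (c σD) 0 1 = 0 := by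
      linear_combination -h
    exact (mul_eq_zero.1 h2).resolve_left (sub_ne_zero.2 ((algebraMap_pow_mul_inv a).2 ha))
  have h10 : inBasis k P (c σD) 1 0 = 0 := by
    have h : inBasis k P (c σD) 1 0 =
        algebraMap (ZMod p) k (((a⁻¹ : (ZMod p)ˣ) : ZMod p) * ((a⁻¹ : (ZMod p)ˣ) : ZMod p)) *
          inBasis k P (c σD) 1 0 :=
      congrFun (congrFun hcφ 1) 0
    have h2 : (algebraMap (ZMod p) k (((a⁻¹ : (ZMod p)ˣ) : ZMod p) * ((a⁻¹ : (ZMod p)ˣ) : ZMod p))
        - 1) * inBasis k P (c σD) 1 0 = 0 := by linear_combination -h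
    refine (mul_eq_zero.1 h2).resolve_left (sub_ne_zero.2 ((algebraMap_pow_mul_inv a⁻¹).2 ?_))
    intro h3
    refine ha ?_
    have h4 : ((a : ZMod p) * ((a⁻¹ : (ZMod p)ˣ) : ZMod p)) ^ 2 = 1 := by
      rw [Units.mul_inv, one_pow]
    rwa [mul_pow, h3, mul_one] at h4
  refine ⟨inBasis k P (c σD) 0 0 / u, fun σ hσ => ?_⟩
  have h11 : inBasis k P (c σD) 1 1 = -inBasis k P (c σD) 0 0 := by
    have h := trace_inBasis k P (c σD)
    rw [hc.2.1, Matrix.trace_fin_two] at h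
    linear_combination h
  ext r s
  rw [hprop r s σ hσ, Matrix.smul_apply, smul_eq_mul]
  congr 1
  fin_cases r <;> fin_cases s <;> simp [h01, h10, h11, neg_div]

end Fixed

end FLTAgent.Lowering.P1.Brauer.Tame
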